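import Fermat.Agent.L.NonEis.Main
import Fermat.Agent.Lib.FrobQbar.Final

/-!
# Cluster L, WP NONEIS: `NonEisStatement W p`, unconditionally
-/

set_option autoImplicit false

namespace Fermat.Agent.L

open WeierstrassCurve WeierstrassCurve.Affine WeierstrassCurve.Affine.Point

/-- **WP NONEIS**: for an elliptic curve `E / ℚ` with integral model `W` and irreducible `E[p]`
(`p` odd), for every modulus `M₀` and finite set `S` there is a good prime `ℓ ∉ S`,
`ℓ ≡ 1 mod M₀`, with `a_ℓ(W) ≢ ℓ + 1 mod p`. -/
theorem nonEisStatement (E : WeierstrassCurve ℚ) [E.IsElliptic]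
    {W : WeierstrassCurve ℤ} (hW : W.IsIntegralModelOf E) {p : ℕ} (hp : p.Prime) (hp2 : p ≠ 2)
    (hirr : GaloisRepIsIrreducible (K := AlgebraicClosure ℚ) ℚ E p) :
    NonEisStatement W p :=
  nonEisStatement_of_reduction E hW hp hp2 (FrobQbar.reductionStatement W) hirr

end Fermat.Agent.L
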