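import Fermat.Agent.L.Interfaces
import Fermat.Agent.Lib.FrobQbar.Bridge

/-!
# Cluster L, WP NONEIS: the residual representation is not Eisenstein

`nonEisStatement_of_frobRel` : `NonEisStatement W p` from the Frobenius relation `(Br)` on `E[p]`.
`nonEisStatement_of_reduction` : `NonEisStatement W p` from the existence of the reduction
homomorphisms at the good primes of `W` (`FrobQbar.ReductionStatement W`).
-/

set_option autoImplicit false

namespace Fermat.Agent.L

open WeierstrassCurve WeierstrassCurve.Affine WeierstrassCurve.Affine.Point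

/-- **WP NONEIS** from the Frobenius relation on `E[p]`. -/
theorem nonEisStatement_of_frobRel (E : WeierstrassCurve ℚ) [E.IsElliptic]
    {W : WeierstrassCurve ℤ} (hW : W.IsIntegralModelOf E) {p : ℕ} (hp : p.Prime) (hp2 : p ≠ 2)
    (hBr : FrobQbar.FrobRelAt E W p)
    (hirr : GaloisRepIsIrreducible (K := AlgebraicClosure ℚ) ℚ E p) :
    NonEisStatement W p := by
  intro M₀ hM₀ S
  obtain ⟨ℓ, h1, h2, h3, h4, h5⟩ :=
    FrobQbar.nonEisenstein_of_model E hW hp hp2 hBr hirr M₀ hM₀ S
  exact ⟨ℓ, h1, h3, h2, h4, h5⟩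

/-- **WP NONEIS** from the existence of the reduction homomorphisms. -/
theorem nonEisStatement_of_reduction (E : WeierstrassCurve ℚ) [E.IsElliptic]
    {W : WeierstrassCurve ℤ} (hW : W.IsIntegralModelOf E) {p : ℕ} (hp : p.Prime) (hp2 : p ≠ 2)
    (hred : FrobQbar.ReductionStatement W)
    (hirr : GaloisRepIsIrreducible (K := AlgebraicClosure ℚ) ℚ E p) :
    NonEisStatement W p :=
  nonEisStatement_of_frobRel E hW hp hp2 (FrobQbar.frobRelAt_of E hW hred p) hirr

end Fermat.Agent.L
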